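import Fermat.Agent.LTG.W1.Per.ArchB

/-!
# Weight one: Hecke relations of the coefficients

`Bn A M η` is the coefficient at the normalised height; along primes it satisfies a recursion.
-/

set_option autoImplicit false
open MeasureTheory Filter
open scoped Classical

namespace Fermat.LTG.W1
open Fermat.LT Fermat.LT3

variable {K : Type*} [Field K] [NumberField K] [NumberField.IsTotallyComplex K] {D : KData K}
variable {E : ℕ} [NeZero E]

omit [NeZero E] in
/-- Primes which are units modulo `9E` do not divide `√-3`. -/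
lemma not_dvd_sR {π : EI} (hπ : Prime π) (hu : IsUnit (red (3 * (3 * E)) π)) : ¬ π ∣ sR := by
  rintro ⟨c, hc⟩
  have hN := congrArg (QuadraticAlgebra.norm : EI → ℤ) hc
  rw [map_mul, show QuadraticAlgebra.norm sR =
    (3 : ℤ) by simp [sR, QuadraticAlgebra.norm_def]] at hN
  have hp : Nat.Prime 3 := Nat.prime_three
  have h1 := congrArg Int.natAbs hN
  rw [Int.natAbs_mul] at h1
  rcases hp.eq_one_or_self_of_dvd _ (Dvd.intro _ h1.symm) with h | h
  · refine hπ.not_isUnit (isUnit_of_norm_one ?_)
    rw [← Int.natAbs_of_nonneg (norm_nonneg_EI π), h]; rfl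
  · have h2 : QuadraticAlgebra.norm π = 3 := by
      rw [← Int.natAbs_of_nonneg (norm_nonneg_EI π), h]; rfl
    have h3 := (hu.map (castER 3 (dvd_mul_right 3 _))).map
      (QuadraticAlgebra.norm : ER (ZMod 3) →* ZMod 3)
    rw [castER_red, norm_red, h2] at h3
    exact not_isUnit_zero (M₀ := ZMod 3) (by simp [show (3 : ZMod 3) = 0 from rfl] at h3)

variable (A : Auto D E)

/-- The coefficient at the normalised height. -/
noncomputable def Bn (M : GN (3 * E)) (η : EI) : ℂ := eCoef D A.Φ M η

/-- **Units.** A diagonal matrix congruent to a unit `u` moves the coefficient at `η` to that at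
`η u`. -/
theorem Bn_unit (M : GN (3 * E)) {η : EI} (hη : η ≠ 0) (u : EIˣ) (a : (RN E)ˣ)
    (ha : (a : RN E) = red (3 * (3 * E)) u) : Bn A (dgN a * M) η = Bn A M (η * u) :=
  eCoef_unit D A.inv (fun M _ => perC_slice A M) M hη u a ha

/-- **The Hecke relation.** The eigenvalue at `π` times the coefficient at `η` is the count of
residues times that at `η π` plus, if `π ∣ η`, that at `η / π`. -/
theorem Bn_hecke {π : EI} (hπ : Prime π) (hu : IsUnit (red (3 * (3 * E)) π)) {T : Finset EI}
    (hT : Reps π T) (M : GN (3 * E)) {η : EI} (hη : η ≠ 0) :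
    (A.lam π : ℂ) * Bn A M η = (T.card : ℂ) * Bn A (dgN hu.unit⁻¹ * M) (η * π)
      + if h : π ∣ η then Bn A (dgN hu.unit * M) h.choose else 0 :=
  eCoef_hecke D hπ (not_dvd_sR hπ hu) (fun M _ ht => perC_slice A M ht)
    (fun M z y _ ht => by
      rw [show sR * ((E : EI) * (sR * y)) = ((3 * E : ℕ) : EI) * -y by
          push_cast; linear_combination ((E : EI) * y) * sR_mul_sR, map_mul, map_natCast]
      exact (perC_slice A M ht).2 z (-y))
    (fun x M z _ ht => A.translate x M z ht) A.scal hu M (fun w => A.hecke π hπ hu T hT M w) hη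

end Fermat.LTG.W1
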