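import Fermat.Agent.LT3.Per.Rows
import Fermat.Agent.LTG.W1.Series.Def

/-!
# Weight one: periods over the plane of `X₁`

`κ₃` of a family is a combination of periods; if it vanishes for all families of periodic functions,
then so do the periods summed over the stabiliser.
-/

set_option autoImplicit false
open Matrix QuadraticAlgebra MeasureTheory Filter
open scoped Classical MatrixGroups ENNReal

namespace Fermat.LTG.W1
open Fermat.LT Fermat.LT3

variable {K : Type*} [Field K] [NumberField K] [NumberField.IsTotallyComplex K] {D : KData K}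
variable {E : ℕ} [NeZero E]

variable (A : Auto D E)

/-- The integrand of a period. -/
noncomputable def pIn (M : GN (3 * E)) (F : ℝ → ℂ) (v : H3) : ℂ :=
  A.Φ M v * F (lin (vec X1) v)

/-- **The periods.** The integral over the plane of `X₁` of the function against the profile `F`. -/
noncomputable def Per3 (M : GN (3 * E)) (F : ℝ → ℂ) : ℂ := ∫ v, (rhoH v : ℂ) * pIn A M F v ∂hmeas

/-- The periods summed over the stabiliser. -/
noncomputable def PS (M : GN (3 * E)) (F : ℝ → ℂ) : ℂ :=
  ∑ g : StG E, Per3 A ((g : GN (3 * E)) * M) F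

/-- **`κ₃` through periods.** The number of units times the functional of norm `3` is the
combination of the periods with the values of the family at `X₁`. -/
theorem cI_three {W : Fam E} (hW : IsFam W) {F : ℝ → ℂ} (hF : Samp.Decay F) :
    (Fintype.card EIˣ : ℂ) * cI A W 3 F
      = ∑ M : GN (3 * E), W M X1 * Per3 A M F :=
  pairI_three (A.pair hW.eqv) hF

/-- The stabiliser modulo `3E`, scalars included. -/
noncomputable def stS (E : ℕ) [NeZero E] : Finset (GN (3 * E)) :=
  Finset.univ.filter fun g => hAct (mat3 g).val (antiJ (ZMod (3 * E))) = antiJ (ZMod (3 * E))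

/-- The scalar of a matrix, modulo `3E`. -/
noncomputable def nu3 (M : GN (3 * E)) : R3 E := ((nu M : ℤ) : R3 E)

/-- The scalar is the norm of the determinant. -/
lemma nu3_eq (M : GN (3 * E)) :
    nu3 M = (mat3 M).val.det * star (mat3 M).val.det := by
  rw [← QuadraticAlgebra.algebraMap_norm_eq_mul_star,
    show (mat3 M).val.det = LT3.redD M.val.det from
      (RingHom.map_det (LT3.redD (E := E)) M.val).symm]
  obtain ⟨x, hx⟩ := red_surjective (3 * (3 * E)) M.val.det
  rw [← hx, LT3.redD_red, norm_red, map_intCast, nu3]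
  have h : ((nu M : ℤ) : ZMod (3 * (3 * E))) =
      ((QuadraticAlgebra.norm x : ℤ) : ZMod (3 * (3 * E))) := by
    rw [cast_nu, ndet, ← hx, norm_red]
  refine intCast_R3_eq.2 ?_
  have := congrArg (ZMod.castHom (dvd_mul_left (3 * E) 3) (ZMod (3 * E))) h
  simpa using this

/-- The scalar is multiplicative. -/
lemma nu3_mul (g M : GN (3 * E)) : nu3 (g * M) = nu3 g * nu3 M := by
  rw [nu3_eq, nu3_eq, nu3_eq, map_mul, Units.val_mul, Matrix.det_mul, star_mul']
  ring

/-- The scalar is a unit. -/
lemma isUnit_nu3 (M : GN (3 * E)) : IsUnit (nu3 M) := by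
  rw [nu3_eq]
  have h := (Matrix.GeneralLinearGroup.det (mat3 M)).isUnit
  rw [Matrix.GeneralLinearGroup.val_det_apply] at h
  exact h.mul h.star

/-- The translate of the antidiagonal form has determinant minus the scalar. -/
lemma det_hAct_antiJ (g : GN (3 * E)) :
    (hAct (mat3 g).val (antiJ (ZMod (3 * E)))).det = -nu3 g := by
  rw [hAct, Matrix.det_mul, Matrix.det_mul, Matrix.det_conjTranspose, nu3_eq, antiJ,
    Matrix.det_fin_two_of]
  ring

/-- The indicator of the class of a point. -/
noncomputable def delC (c : Matrix (Fin 2) (Fin 2) (R3 E)) (X : Lz) : ℂ :=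
  if ∃ μ, X = lam μ ∧ (hE μ).map (red (3 * E)) = c then 1 else 0

omit [NeZero E] in
/-- The indicator of a class is periodic. -/
lemma per_delC (c : Matrix (Fin 2) (Fin 2) (R3 E)) : LT3.Per (3 * E) (delC c) := fun X ν => by
  have key : ∀ (m : ℤ) (Y : Lz), (∃ μ, Y = lam μ ∧ (hE μ).map (red (3 * E)) = c) →
      ∃ μ, Y + (((3 * E : ℕ) : ℤ) * m) • lam ν = lam μ ∧ (hE μ).map (red (3 * E)) = c := by
    rintro m Y ⟨μ, rfl, hμ⟩
    refine ⟨μ + (((3 * E : ℕ) : ℤ) * m) • ν, by rw [lam_add, lam_smul], ?_⟩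
    rw [← hμ, hE_map_apply, hE_map_apply]
    have hz : ((3 : ZMod (3 * E)) * (E : ZMod (3 * E))) = 0 := by
      have := ZMod.natCast_self (3 * E)
      push_cast at this
      exact this
    ext i j : 1
    fin_cases i <;> fin_cases j <;> simp [QuadraticAlgebra.ext_iff, hz]
  have h : (∃ μ, X + ((3 * E : ℕ) : ℤ) • lam ν = lam μ ∧ (hE μ).map (red (3 * E)) = c) ↔
      ∃ μ, X = lam μ ∧ (hE μ).map (red (3 * E)) = c := by
    constructor
    · intro hX
      have := key (-1) _ hX
      rwa [mul_neg_one, neg_smul, add_neg_cancel_right] at this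
    · intro hX
      have := key 1 _ hX
      rwa [mul_one] at this
  simp only [delC, h]

/-- The class of the translate of `X₁`. -/
noncomputable def cls3 (N : GN (3 * E)) : Matrix (Fin 2) (Fin 2) (R3 E) := nu3 N • Hm N

/-- The family of the indicator of a class tests membership in the stabiliser. -/
lemma tw_delC (N M : GN (3 * E)) :
    tw (delC (cls3 N)) M X1 = if M * N⁻¹ ∈ stS E then 1 else 0 := by
  rw [tw, X1, dact_lam, ← lam_smul, delC]
  -- read the class through the matrix `Hm M` modulo `3 E`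
  have hc : (hE (nu M • lact (liftM (M⁻¹).val) mu1)).map (red (3 * E)) = nu3 M • Hm M := by
    rw [← hm_eq, mu3, hE_map_apply, hE_map_apply]
    ext i j : 1
    fin_cases i <;> fin_cases j <;> simp [nu3, QuadraticAlgebra.ext_iff, mul_add]
  refine if_congr ?_ rfl rfl
  have hiff : (∃ μ, lam (nu M • lact (liftM (M⁻¹).val) mu1) = lam μ ∧
      (hE μ).map (red (3 * E)) = cls3 N) ↔ nu3 M • Hm M = cls3 N := by
    constructor
    · rintro ⟨μ, h, hμ⟩; rw [← hμ, ← lam_injective h, hc]
    · intro h; exact ⟨_, rfl, hc.trans h⟩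
  rw [hiff, cls3, stS, Finset.mem_filter, and_iff_right (Finset.mem_univ _)]
  -- write `M = g N` and cancel `N`
  obtain ⟨g, rfl⟩ : ∃ g, M = g * N := ⟨M * N⁻¹, (inv_mul_cancel_right _ _).symm⟩
  rw [mul_inv_cancel_right, Hm, Hm, _root_.mul_inv_rev, map_mul, Units.val_mul, hAct_mul,
    nu3_mul, mul_comm (nu3 g), mul_smul, (isUnit_nu3 N).smul_left_cancel]
  set J := antiJ (ZMod (3 * E))
  have hsm : ∀ (a : R3 E) (u X : Matrix (Fin 2) (Fin 2) (R3 E)),
      hAct u (a • X) = a • hAct u X := fun a u X => by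
    simp [hAct]
  -- comparing determinants, the scalar is one
  constructor
  · intro h
    have h1 := congrArg (hAct (mat3 N).val) h
    rw [hsm, map_inv, hAct_cancel_inv (mat3 N), hAct_cancel_inv (mat3 N)] at h1
    have h2 := congrArg (hAct (mat3 g).val) h1
    rw [hsm, map_inv, hAct_cancel_inv (mat3 g)] at h2
    have h3 := congrArg Matrix.det h2
    rw [det_hAct_antiJ, Matrix.det_smul, Fintype.card_fin, show J.det = -1 by
      simp [J, antiJ, Matrix.det_fin_two]] at h3
    have h4 : nu3 g = 1 := by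
      refine (isUnit_nu3 g).mul_left_cancel ?_
      linear_combination -h3
    rw [h4, one_smul] at h2
    exact h2.symm
  · intro h
    have h3 := congrArg Matrix.det h
    rw [det_hAct_antiJ, show J.det = -1 by simp [J, antiJ, Matrix.det_fin_two], neg_inj] at h3
    conv_lhs => rw [h3, one_smul, map_inv _ g, ← h, hAct_inv_cancel]

/-- Scalars correct the determinant. -/
lemma exists_scal_StG {h : GN (3 * E)} (hh : h ∈ stS E) :
    ∃ z : (RN E)ˣ, upG z 0 z * h ∈ StG E := by
  have hh' := (Finset.mem_filter.1 hh).2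
  -- the determinant gives `ν h = 1 - 3 E j`
  have h3 := congrArg Matrix.det hh'
  rw [det_hAct_antiJ, show (antiJ (ZMod (3 * E))).det = -1 by simp [antiJ, Matrix.det_fin_two],
    neg_inj, nu3, show (1 : R3 E) = ((1 : ℤ) : R3 E) from Int.cast_one.symm, intCast_R3_eq,
      ZMod.intCast_eq_intCast_iff_dvd_sub] at h3
  obtain ⟨j, hj⟩ := h3
  have hv : ndet h = (((1 - (3 * E : ℕ) * j : ℤ)) : ZMod (3 * (3 * E))) := by
    rw [← cast_nu, show nu h = 1 - ((3 * E : ℕ) : ℤ) * j by linarith]
  have hz : ((9 : ZMod (3 * (3 * E))) * (E : ZMod (3 * (3 * E)))) = 0 := by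
    have := ZMod.natCast_self (3 * (3 * E))
    push_cast at this
    linear_combination this
  have hR : ((9 : RN E) * (E : RN E)) = 0 := by
    have := congrArg (algebraMap (ZMod (3 * (3 * E))) (RN E)) hz
    simpa [map_mul, map_ofNat] using this
  -- `z = 1 + 3 E j` is its inverse, as `9 E = 0`
  set z : RN E := ((1 + (3 * E : ℕ) * j : ℤ) : RN E) with hzd
  have hu : z * ((1 - (3 * E : ℕ) * j : ℤ) : RN E) = 1 := by
    simp only [hzd]
    push_cast
    linear_combination (-(j : RN E) ^ 2 * (E : RN E)) * hR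
  have hzu : IsUnit z := IsUnit.of_mul_eq_one _ hu
  -- scaling by `z` fixes the norm determinant and is trivial modulo `3 E`
  refine ⟨hzu.unit, ?_, ?_⟩
  · rw [ndet, Units.val_mul, Matrix.det_mul, map_mul, ← ndet, ← ndet, hv, ndet, upG_val,
      Matrix.det_fin_two_of, IsUnit.unit_spec, mul_zero, sub_zero, map_mul,
      show QuadraticAlgebra.norm z = ((1 + (3 * E : ℕ) * j : ℤ) : ZMod (3 * (3 * E))) ^ 2 by
        simp [hzd, QuadraticAlgebra.norm_def]; ring]
    push_cast
    linear_combination (((j : ZMod (3 * (3 * E))) + 2 * (j : ZMod (3 * (3 * E))) ^ 2 * E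
      - 6 * (E : ZMod (3 * (3 * E))) ^ 2 * (j : ZMod (3 * (3 * E))) ^ 3
      - 27 * (E : ZMod (3 * (3 * E))) ^ 3 * (j : ZMod (3 * (3 * E))) ^ 4
      - 27 * (E : ZMod (3 * (3 * E))) ^ 4 * (j : ZMod (3 * (3 * E))) ^ 5)) * hz
  · have hd : LT3.redD z = 1 := by
      simp only [hzd, map_intCast]
      rw [show (1 : R3 E) = ((1 : ℤ) : R3 E) from Int.cast_one.symm, intCast_R3_eq]
      push_cast
      have := ZMod.natCast_self (3 * E)
      push_cast at this
      linear_combination (j : ZMod (3 * E)) * this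
    have e : (mat3 (upG hzu.unit 0 hzu.unit : GN (3 * E))).val = 1 := by
      ext i j : 1
      change LT3.redD ((upG hzu.unit 0 hzu.unit : GN (3 * E)).val i j) = _
      fin_cases i <;> fin_cases j <;> simp [hd]
    rw [map_mul, Units.val_mul, e, one_mul, hh']

/-- **All periods vanish with the third coefficients.** -/
theorem PS_eq_zero (hvan : ∀ Ψ : Lz → ℂ, LT3.Per (3 * E) Ψ → kap A (tw Ψ) 3 = 0)
    (N : GN (3 * E)) {F : ℝ → ℂ} (hF : Samp.Decay F) (he : IsEvenF F) : PS A N F = 0 := by
  have hW := (isHFam_tw (per_delC (cls3 N))).toIsFam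
  -- the third coefficient of the indicator is a sum over the stabiliser
  have hsum := cI_three A hW hF
  rw [cI_pos A hW (by norm_num) hF he, hvan _ (per_delC _), zero_mul, mul_zero] at hsum
  simp only [tw_delC, ite_mul, one_mul, zero_mul] at hsum
  have h0 : ∑ h ∈ stS E, Per3 A (h * N) F = 0 := by
    rw [hsum, ← Finset.sum_filter]
    refine Finset.sum_bij' (fun h _ => h * N) (fun M _ => M * N⁻¹) (fun h hh => ?_) (fun M hM => ?_)
      (fun h _ => mul_inv_cancel_right h N) (fun M _ => inv_mul_cancel_right M N) (fun h _ => rfl)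
    · exact Finset.mem_filter.2 ⟨Finset.mem_univ _, by rwa [mul_inv_cancel_right]⟩
    · exact (Finset.mem_filter.1 hM).2
  have hG : ∀ g : StG E, (g : GN (3 * E)) ∈ stS E := fun g =>
    Finset.mem_filter.2 ⟨Finset.mem_univ _, g.2.2⟩
  have hmem : ∀ {a b : GN (3 * E)}, a ∈ stS E → b ∈ stS E → a * b ∈ stS E := fun ha hb =>
    Finset.mem_filter.2 ⟨Finset.mem_univ _, by
      rw [map_mul, Units.val_mul, hAct_mul, (Finset.mem_filter.1 hb).2, (Finset.mem_filter.1 ha).2]⟩
  -- translate by each element of `StG` and sum over them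
  have h1 : ∀ g : StG E, ∑ h ∈ stS E, Per3 A ((g : GN (3 * E)) * h * N) F = 0 := fun g => by
    rw [← h0]
    refine Finset.sum_bij' (fun h _ => (g : GN (3 * E)) * h) (fun h _ => (g : GN (3 * E))⁻¹ * h)
      (fun h hh => hmem (hG g) hh) (fun h hh => hmem (by simpa using hG g⁻¹) hh)
      (fun h _ => inv_mul_cancel_left _ h) (fun h _ => mul_inv_cancel_left _ h) (fun h _ => rfl)
  have h2 : ∑ h ∈ stS E, ∑ g : StG E, Per3 A ((g : GN (3 * E)) * h * N) F = 0 := by
    rw [Finset.sum_comm]
    exact Finset.sum_eq_zero fun g _ => h1 g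
  -- up to a scalar every inner sum is `PS`
  have h3 : ∀ h ∈ stS E, ∑ g : StG E, Per3 A ((g : GN (3 * E)) * h * N) F = PS A N F := by
    intro h hh
    obtain ⟨z, hz⟩ := exists_scal_StG hh
    have hc : ∀ g : GN (3 * E), upG z 0 z * g = g * upG z 0 z := fun g => by
      refine Units.ext ?_
      ext i j : 1
      fin_cases i <;> fin_cases j <;> simp [Matrix.mul_apply, Fin.sum_univ_two, mul_comm]
    have e : ∀ g : StG E, Per3 A ((g : GN (3 * E)) * h * N) F
        = Per3 A (((g * ⟨_, hz⟩ : StG E) : GN (3 * E)) * N) F := fun g => by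
      rw [Subgroup.coe_mul, ← mul_assoc (g : GN (3 * E)), ← hc, mul_assoc, mul_assoc,
        ← mul_assoc (g : GN (3 * E))]
      simp only [Per3, pIn, mul_assoc, A.scal]
    rw [Finset.sum_congr rfl fun g _ => e g, PS]
    exact Equiv.sum_comp (Equiv.mulRight (⟨_, hz⟩ : StG E)) fun g : StG E =>
      Per3 A ((g : GN (3 * E)) * N) F
  -- so a positive multiple of `PS` vanishes
  rw [Finset.sum_congr rfl h3, Finset.sum_const, nsmul_eq_mul] at h2
  refine (mul_eq_zero.1 h2).resolve_left (Nat.cast_ne_zero.2 (Finset.card_ne_zero_of_mem (hG 1)))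

end Fermat.LTG.W1
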