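import Fermat.Agent.LTG.W1.Per.Four

/-!
# Weight one: the archimedean factor of the coefficients

The coefficient at height `t` is a universal multiple of the one at height `1 / |frequency|`.
-/

set_option autoImplicit false

namespace Fermat.LTG.W1
open Fermat.LT Fermat.LT3

variable {K : Type*} [Field K] [NumberField K] [NumberField.IsTotallyComplex K] {D : KData K}
variable {E : ℕ} [NeZero E]

variable (A : Auto D E)

/-- **The archimedean factor.** The coefficient at height `t` is `rho (|η / 3E| t)` times that at
height `1 / |η / 3E|`. -/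
theorem Bc_rho (M : GN (3 * E)) {η : EI} (hη : η ≠ 0) {t : ℝ} (ht : 0 < t) :
    Bc A M η t = Mult.rho (‖fr E η‖ * t) * Bc A M η ‖fr E η‖⁻¹ :=
  hCoef_rho D (A.isEig M) (fun _ h => perC_slice A M h) hη ht

end Fermat.LTG.W1
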