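import Fermat.Agent.LTG.W1.Per.ArchB

/-!
# Weight one: decay in the cusp

An eigenfunction is Lipschitz for the hyperbolic distance; as the mean over a horosphere vanishes,
this gives `O(1/t)` at height `t`.
-/

set_option autoImplicit false
open MeasureTheory Set

namespace Fermat.LTG.W1
open Fermat.LT Fermat.LT3

variable {K : Type*} [Field K] [NumberField K] [NumberField.IsTotallyComplex K] {D : KData K}
variable {E : ℕ} [NeZero E]

variable (A : Auto D E)

/-- Lattice points come within distance one of every number. -/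
lemma exists_toC_near (u : ℂ) : ∃ x : EI, ‖u + toC x‖ ≤ 1 := by
  refine ⟨⟨-round (cu u), -round (cv u)⟩, ?_⟩
  rw [Complex.norm_def, Real.sqrt_le_one, normSq_eq_cuv, cu_add_toC, cv_add_toC]
  have h1 := abs_le.1 (abs_sub_round (cu u))
  have h2 := abs_le.1 (abs_sub_round (cv u))
  push_cast
  simp only [← sub_eq_add_neg]
  nlinarith [sq_nonneg (cu u - round (cu u) - (cv u - round (cv u)))]

/-- **Decay.** The function is `O(1/t)` at height `t`, uniformly in the matrix and the horizontal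
coordinate. -/
theorem exists_decay_Phi :
    ∃ C, 0 ≤ C ∧ ∀ (M : GN (3 * E)) (z : ℂ) (t : ℝ), 0 < t → ‖A.Φ M (H3.mk z t)‖ ≤ C / t := by
  obtain ⟨C0, hC0⟩ := A.bound
  have hC00 : 0 ≤ C0 := (norm_nonneg _).trans (hC0 1 base)
  set V := (hmeas {u | H3.coord u ∈ boxD}).toReal
  set L := C0 * 22 * V / ‖hhat0 kT‖
  have hL0 : 0 ≤ L := by positivity
  refine ⟨(L + C0) * (3 * E), by positivity, fun M z t ht => ?_⟩
  rw [le_div_iff₀ ht]
  by_cases hbig : t < 3 * E
  · calc ‖A.Φ M (H3.mk z t)‖ * t ≤ C0 * (3 * E) :=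
          mul_le_mul (hC0 _ _) hbig.le ht.le hC00
      _ ≤ _ := by nlinarith [mul_nonneg hL0 (Nat.cast_nonneg (α := ℝ) E)]
  rw [not_lt] at hbig
  -- the variation along a period
  have hd : ∀ z', ‖A.Φ M (H3.mk z t) - A.Φ M (H3.mk z' t)‖ ≤ L * (3 * E) / t := by
    intro z'
    obtain ⟨x, hx⟩ := exists_toC_near ((z' - z) / ((3 * E : ℕ) : ℂ))
    set c : ℂ := z' - z + ((3 * E : ℕ) : ℂ) * toC x with hc
    have hN : ((3 * E : ℕ) : ℂ) ≠ 0 := Nat.cast_ne_zero.2 three_E_ne_zero
    have hcn : ‖c‖ ≤ 3 * E := by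
      have e : c = ((3 * E : ℕ) : ℂ) * ((z' - z) / ((3 * E : ℕ) : ℂ) + toC x) := by
        rw [mul_add, mul_div_cancel₀ _ hN]
      rw [e, norm_mul, Complex.norm_natCast]
      push_cast
      push_cast at hx
      exact mul_le_of_le_one_right (by positivity) hx
    have e1 : A.Φ M (H3.mk z' t) = A.Φ M (H3.mk (z + c) t) := by
      rw [show z + c = z' + ((3 * E : ℕ) : ℂ) * toC x by rw [hc]; ring]
      exact ((perC_slice A M ht).2 z' x).symm
    rw [e1, mul_div_assoc]
    exact ((A.isEig M).norm_sub_le_coord (hC0 M) ht (hcn.trans hbig)).trans (by gcongr)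
  have hs := perC_slice A M ht
  have hconst := PerC.const (3 * E) (A.Φ M (H3.mk z t))
  -- the mean vanishes
  have e : mC D (fun z' => A.Φ M (H3.mk z t) - A.Φ M (H3.mk z' t)) = A.Φ M (H3.mk z t) := by
    have h0 := mC_slice_eq_zero A M ht
    have hneg := mC_const_mul D three_E_ne_zero hs (-1)
    rw [h0, mul_zero] at hneg
    have hadd : mC D (fun z' => A.Φ M (H3.mk z t) + -1 * A.Φ M (H3.mk z' t))
        = mC D (fun _ => A.Φ M (H3.mk z t)) + mC D fun z' => -1 * A.Φ M (H3.mk z' t) :=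
      Mult.mean_add (isPer_of_perC D three_E_ne_zero hconst)
        (isPer_of_perC D three_E_ne_zero ((PerC.const _ (-1)).mul hs))
    rw [hneg, mC_const, add_zero] at hadd
    simpa [neg_mul, ← sub_eq_add_neg] using hadd
  have hper : PerC (3 * E) fun z' => A.Φ M (H3.mk z t) - A.Φ M (H3.mk z' t) :=
    ⟨continuous_const.sub hs.1, fun w x => by
      change _ - _ = _ - _
      rw [show A.Φ M (H3.mk (w + ((3 * E : ℕ) : ℂ) * toC x) t) = A.Φ M (H3.mk w t) from hs.2 w x]⟩
  have h4 := norm_mC_le D three_E_ne_zero hper hd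
  rw [e, le_div_iff₀ ht] at h4
  nlinarith [mul_nonneg hC00 (Nat.cast_nonneg (α := ℝ) E)]

end Fermat.LTG.W1
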