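import Fermat.Agent.LTG.W1.Per.HeckeV

/-!
# Weight one: the series of the weights

`∑ gN m m^{-σ}` over `m` prime to the level is unbounded at `1` as soon as `∑ a b p^{-σ}` over the
split primes is, where `a`, `b` are the two normalised eigenvalues.
-/

set_option autoImplicit false
open Filter
open scoped Classical Topology

namespace Fermat.LTG.W1
open Fermat.LT Fermat.LT3

variable {K : Type*} [Field K] [NumberField K] [NumberField.IsTotallyComplex K] {D : KData K}
variable {E : ℕ} [NeZero E]

variable [IsPrincipalIdealRing EI] (A : Auto D E)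

/-- The product of the two normalised eigenvalues at a split prime. -/
noncomputable def abP (p : ℕ) : ℝ :=
  if h : ∃ π : EI, QuadraticAlgebra.norm π = (p : ℤ) then
    A.lam h.choose / Real.sqrt p * (A.lam (star h.choose) / Real.sqrt p)
  else 0

/-- The term `abP p / p ^ σ` at a prime prime to the level. -/
noncomputable def abW (σ : ℝ) (p : ℕ) : ℝ :=
  (if Nat.Coprime p (3 * E) then abP A p else 0) * ((p : ℝ) ^ σ)⁻¹

omit [IsPrincipalIdealRing EI] in
/-- The product of the normalised eigenvalues is at most four. -/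
lemma abs_abP_le (hA : LamOK A) {p : ℕ} (hp : p.Prime) (hco : Nat.Coprime p (3 * E)) :
    |abP A p| ≤ 4 := by
  rw [abP]
  split_ifs with h
  · rw [abs_mul, show (4 : ℝ) = 2 * 2 by norm_num]
    exact mul_le_mul (abs_split_le hA.bound hp hco h.choose_spec)
      (abs_split_le hA.bound hp hco (by rw [QuadraticAlgebra.norm_star, h.choose_spec]))
      (abs_nonneg _) two_pos.le
  · rw [abs_zero]; norm_num

omit [IsPrincipalIdealRing EI] in
/-- The first order term is at most `4 p^{-σ}`. -/
lemma abs_abW_le (hA : LamOK A) (σ : ℝ) {p : ℕ} (hp : p.Prime) :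
    |abW A σ p| ≤ 4 * ((p : ℝ) ^ σ)⁻¹ := by
  have h0 : 0 ≤ ((p : ℝ) ^ σ)⁻¹ := by positivity
  rw [abW, abs_mul, abs_of_nonneg h0]
  refine mul_le_mul_of_nonneg_right ?_ h0
  split_ifs with hco
  · exact abs_abP_le A hA hp hco
  · rw [abs_zero]; norm_num

omit [IsPrincipalIdealRing EI] in
/-- The first order terms are absolutely summable. -/
lemma summable_abW (hA : LamOK A) {σ : ℝ} (hσ : 1 < σ) :
    Summable fun p : Nat.Primes => abW A σ p :=
  Summable.of_norm_bounded (((Real.summable_nat_rpow_inv.2 hσ).comp_injective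
    Nat.Primes.coe_nat_injective).mul_left 4) fun p =>
      (Real.norm_eq_abs _).trans_le (abs_abW_le A hA σ p.2)

omit [IsPrincipalIdealRing EI] in
/-- An elementary lower bound for `1 + y` by an exponential. -/
lemma exp_sub_le {y : ℝ} (hy : -1 < y) : Real.exp (y - y ^ 2 / (1 + y)) ≤ 1 + y := by
  have h1 : 0 < 1 + y := by linarith
  rw [show y - y ^ 2 / (1 + y) = -(-(y / (1 + y))) by field_simp; ring, Real.exp_neg]
  refine inv_le_of_inv_le₀ h1 ((le_of_eq ?_).trans (Real.add_one_le_exp _))
  field_simp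
  ring

/-- The local factors from below. -/
lemma le_eulerFactor (hA : LamOK A) {σ : ℝ} (hσ : 1 < σ) {p : ℕ} (hp : p.Prime) :
    Real.exp (abW A σ p - 265 * (((p : ℝ) ^ σ)⁻¹) ^ 2) ≤ ∑' k, gSer E (gN A.lam) σ (p ^ k) := by
  obtain ⟨h0, h1⟩ := inv_rpow_le_half hp hσ
  have hsm : Summable fun k => gSer E (gN A.lam) σ (p ^ k) :=
    (summable_gSer_pow (gN_one A.lam) (abs_gN_pow_le hA.bound) hσ hp).of_norm
  rw [abW]
  set X := ((p : ℝ) ^ σ)⁻¹ with hX
  by_cases hco : Nat.Coprime p (3 * E)
  · have hgd : ∀ k, gSer E (gN A.lam) σ (p ^ k) = gP A.lam p k * X ^ k := fun k => by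
      rw [gSer_prime_pow (gN_one A.lam) σ p k, if_pos (Or.inr hco), gN_prime_pow hp]
    simp only [hgd] at hsm ⊢
    rw [if_pos hco, abP]
    by_cases h : ∃ π : EI, QuadraticAlgebra.norm π = (p : ℤ)
    · rw [dif_pos h]
      set π := h.choose
      set a := A.lam π / Real.sqrt p
      set b := A.lam (star π) / Real.sqrt p
      have hp5 : 7 ≤ p := by
        have h2 := norm_mod_three π h.choose_spec
        have h3 : p ≠ 3 := fun e => by
          have := Nat.Coprime.coprime_dvd_right (dvd_mul_right 3 E) hco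
          rw [e] at this; norm_num at this
        have := hp.two_le
        by_contra h7
        rw [not_le] at h7
        interval_cases p <;> first | omega | exact absurd hp (by norm_num)
      have hX7 : X ≤ 1 / 7 := by
        rw [hX, one_div]
        refine inv_anti₀ (by norm_num) (le_trans ?_ (Real.self_le_rpow_of_one_le ?_ hσ.le))
        · exact_mod_cast hp5
        · exact_mod_cast hp.one_le
      have hgs : Summable fun k : ℕ => 9 * X ^ 2 * (2 * X) ^ k :=
        (summable_geometric_of_lt_one (by positivity) (by linarith)).mul_left _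
      -- the factor is `1 + a b X + O(X²)`, and `1 + y ≥ exp (y - y² / (1 + y))`
      have htail : |∑' k, gP A.lam p (k + 2) * X ^ (k + 2)| ≤ 13 * X ^ 2 := by
        rw [← Real.norm_eq_abs]
        refine (tsum_of_norm_bounded hgs.hasSum fun k => ?_).trans ?_
        · rw [Real.norm_eq_abs, abs_mul, abs_of_nonneg (pow_nonneg h0 (k + 2))]
          have hk : ((k : ℝ) + 3) ^ 2 ≤ 9 * 2 ^ k := by
            induction k with
            | zero => norm_num
            | succ k ih =>
              push_cast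
              rw [pow_succ (2 : ℝ) k]
              nlinarith [ih, Nat.cast_nonneg (α := ℝ) k, sq_nonneg (k : ℝ)]
          refine (mul_le_mul_of_nonneg_right ((abs_gP_le hA.bound hp hco (k + 2)).trans
            (le_trans (le_of_eq (by push_cast; ring)) hk)) (pow_nonneg h0 _)).trans (le_of_eq ?_)
          rw [mul_pow, pow_add]; ring
        · rw [tsum_mul_left, tsum_geometric_of_lt_one (by positivity) (by linarith)]
          have : (1 - 2 * X)⁻¹ ≤ 7 / 5 := by
            rw [show (7 : ℝ) / 5 = (5 / 7)⁻¹ by norm_num]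
            exact inv_anti₀ (by norm_num) (by linarith)
          nlinarith [sq_nonneg X, mul_le_mul_of_nonneg_left this (by positivity : 0 ≤ 9 * X ^ 2)]
      have e2 : ∑' k, gP A.lam p k * X ^ k =
          1 + a * b * X + ∑' k, gP A.lam p (k + 2) * X ^ (k + 2) := by
        rw [← hsm.sum_add_tsum_nat_add 2, Finset.sum_range_succ, Finset.sum_range_one, gP_zero]
        congr 1
        rw [gP, dif_pos h]
        simp only [Ucheb, pow_zero, pow_one, one_mul]
        rfl
      rw [e2]
      have hab : |a * b| ≤ 4 := by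
        have := abs_abP_le A hA hp hco
        rwa [abP, dif_pos h] at this
      obtain ⟨ha1, ha2⟩ := abs_le.1 hab
      obtain ⟨ht1, -⟩ := abs_le.1 htail
      set y := a * b * X - 13 * X ^ 2
      have hy1 : 1 / 7 ≤ 1 + y := by
        simp only [y]; nlinarith [mul_le_mul_of_nonneg_right ha1 h0]
      have hy2 : y ^ 2 ≤ 36 * X ^ 2 := by
        have e : |y| ≤ 6 * X :=
          abs_le.2 ⟨by simp only [y]; nlinarith [mul_le_mul_of_nonneg_right ha1 h0,
                         mul_le_mul_of_nonneg_left hX7 h0],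
          by simp only [y]; nlinarith [mul_le_mul_of_nonneg_right ha2 h0]⟩
        nlinarith [sq_abs y, abs_nonneg y]
      refine le_trans (Real.exp_le_exp.2 ?_)
        ((exp_sub_le (y := y) (by linarith)).trans (by simp only [y]; linarith))
      have hq : y ^ 2 / (1 + y) ≤ 252 * X ^ 2 := by
        rw [div_le_iff₀ (by linarith)]
        nlinarith [sq_nonneg X]
      simp only [y] at hq ⊢
      linarith
    · rw [dif_neg h, zero_mul, zero_sub]
      exact (Real.exp_le_exp.2 (by nlinarith [sq_nonneg X])).trans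
        (le_tsum_inert hA.bound hp hco h (hA.inert p hp hco h) h0 h1 hsm)
  · have hz : ∀ k, k ≠ 0 → gSer E (gN A.lam) σ (p ^ k) = 0 := fun k hk => by
      rw [gSer_prime_pow (gN_one A.lam) σ p k, if_neg (by simp [hk, hco]), zero_mul]
    rw [tsum_eq_single 0 hz, pow_zero, gSer_one (gN_one A.lam), if_neg hco, zero_mul, zero_sub]
    exact Real.exp_le_one_iff.2 (by nlinarith)

/-- **The series is unbounded at `1`.** If the sums of `abW` over primes are unbounded as `σ → 1`,
so are the series of the weights `gN`. -/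
theorem gSer_unbounded (hA : LamOK A)
    (hdiv : ∀ C : ℝ, ∃ᶠ σ : ℝ in 𝓝[>] 1, C ≤ ∑' p : Nat.Primes, abW A σ p) (C : ℝ) :
    ∃ᶠ σ : ℝ in 𝓝[>] 1, C ≤ ∑' n, gSer E (gN A.lam) σ n := by
  set Z : ℝ := ∑' p : Nat.Primes, 265 * ((((p : ℕ) : ℝ) ^ 2))⁻¹
  refine ((hdiv (C + Z)).and_eventually self_mem_nhdsWithin).mono ?_
  rintro σ ⟨hC, hσ : 1 < σ⟩
  -- compare with the Euler product
  have hlim := EulerProduct.eulerProduct (gSer_one (gN_one A.lam) σ) (fun h => gSer_mul gN_mul σ h)
    (summable_gSer (gN_one A.lam) (abs_gN_pow_le hA.bound) gN_mul hσ) (gSer_zero _ σ)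
  have hW := summable_abW A hA hσ
  have hZ : Summable fun p : Nat.Primes => 265 * ((((p : ℕ) : ℝ) ^ 2))⁻¹ :=
    ((Real.summable_nat_pow_inv.2 one_lt_two).comp_injective
      Nat.Primes.coe_nat_injective).mul_left 265
  have hF := hW.sub hZ
  -- each factor is at least `exp (F p)`
  set F : Nat.Primes → ℝ := fun p => abW A σ p - 265 * ((((p : ℕ) : ℝ) ^ 2))⁻¹ with hFd
  set sN : ℕ → Finset Nat.Primes :=
    fun N => (N.primesBelow.subtype Nat.Prime : Finset {p : ℕ // p.Prime})
  have hmem : ∀ (N : ℕ) (q : Nat.Primes), q ∈ sN N ↔ (q : ℕ) < N := fun N q =>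
    (Finset.mem_subtype (p := Nat.Prime) (a := q)).trans
      ⟨fun h => (Nat.mem_primesBelow.1 h).1, fun h => Nat.mem_primesBelow.2 ⟨h, q.2⟩⟩
  have htop : Tendsto sN atTop atTop :=
    tendsto_atTop_finset_of_monotone
      (fun m n hmn q hq => (hmem n q).2 (lt_of_lt_of_le ((hmem m q).1 hq) hmn))
      fun q => ⟨(q : ℕ) + 1, (hmem _ q).2 (Nat.lt_succ_self _)⟩
  have hlow : Tendsto (fun N => Real.exp (∑ p ∈ sN N, F p)) atTop (𝓝 (Real.exp (∑' p, F p))) :=
    (Real.continuous_exp.tendsto _).comp (hF.hasSum.comp htop)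
  have hle := le_of_tendsto_of_tendsto' hlow hlim fun N => by
    rw [Real.exp_sum]
    refine le_trans (Finset.prod_le_prod (fun p _ => (Real.exp_pos _).le)
      (g := fun p : Nat.Primes => ∑' k, gSer E (gN A.lam) σ ((p : ℕ) ^ k)) fun p _ => ?_)
      (le_of_eq ?_)
    · refine le_trans (Real.exp_le_exp.2 ?_) (le_eulerFactor A hA hσ p.2)
      simp only [hFd]
      have h1 : (1 : ℝ) ≤ (p : ℕ) := by exact_mod_cast p.2.one_le
      have h2 : (((((p : ℕ) : ℝ)) ^ σ)⁻¹) ^ 2 ≤ ((((p : ℕ) : ℝ)) ^ 2)⁻¹ := by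
        rw [← inv_pow]
        gcongr
        exact Real.self_le_rpow_of_one_le h1 hσ.le
      linarith
    · refine (Finset.prod_subtype_eq_prod_filter (p := Nat.Prime)
        fun q : ℕ => ∑' k, gSer E (gN A.lam) σ (q ^ k)).trans (Finset.prod_congr ?_ fun _ _ => rfl)
      exact Finset.filter_true_of_mem fun q hq => Nat.prime_of_mem_primesBelow hq
  -- and `exp x` is at least `x + 1`
  refine le_trans ?_ hle
  have e : ∑' p, F p = (∑' p : Nat.Primes, abW A σ p) - Z := hW.tsum_sub hZ
  linarith [Real.add_one_le_exp (∑' p, F p)]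

end Fermat.LTG.W1
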