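import Fermat.Agent.LT3.Per.Lead
import Fermat.Agent.LTG.W1.Auto

/-!
# Weight one: Fourier coefficients on horospheres

`Bc A M η t` is the coefficient of `z ↦ Φ M (z, t)` at the frequency `η / 3E`; the slices have
the periods `3E ℤ[ω]`.
-/

set_option autoImplicit false
open Matrix

namespace Fermat.LTG.W1
open Fermat.LT Fermat.LT3

variable {K : Type*} [Field K] [NumberField K] [NumberField.IsTotallyComplex K] {D : KData K}
variable {E : ℕ} [NeZero E]

variable (A : Auto D E)

/-- The function depends on the matrix only modulo `3E`. -/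
lemma Auto.congr_redD {M M' : GN (3 * E)}
    (h : M.val.map (LT3.redD (E := E)) = M'.val.map (LT3.redD (E := E)))
    (w : H3) : A.Φ M w = A.Φ M' w := by
  rw [← A.level (M⁻¹ * M') M ?_ w, mul_inv_cancel_left]
  change (M⁻¹ * M').val.map (LT3.redD (E := E)) = 1
  rw [Units.val_mul, Matrix.map_mul, ← h, ← Matrix.map_mul, ← Units.val_mul, inv_mul_cancel,
    Units.val_one, Matrix.map_one _ (map_zero _) (map_one _)]

/-- The function is invariant on the left under classes of one modulo `3E`. -/
lemma Auto.congr_left {k : GN (3 * E)} (h : k.val.map (LT3.redD (E := E)) = 1)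
    (M : GN (3 * E)) (w : H3) :
    A.Φ (k * M) w = A.Φ M w :=
  A.congr_redD (by rw [Units.val_mul, Matrix.map_mul, h, Matrix.one_mul]) w

/-- Invariance under translations. -/
lemma Auto.translate (x : EI) (M : GN (3 * E)) (z : ℂ) {t : ℝ} (ht : 0 < t) :
    A.Φ (nG x * M) (H3.mk (z + toC x) t) = A.Φ M (H3.mk z t) :=
  translate_of_inv A.inv x M z ht

/-- Restrictions to horospheres are periodic modulo `3E`. -/
lemma perC_slice (M : GN (3 * E)) {t : ℝ} (ht : 0 < t) :
    PerC (3 * E) fun z => A.Φ M (H3.mk z t) :=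
  perC_slice_of_inv A.inv A.cont (fun _ N w => A.congr_left (nG_map_eq_one _ (by
    rw [LT3.redD_red, red_eq_zero_iff]; exact dvd_mul_right _ _)) N w) M ht

/-- **The coefficient.** `Bc A M η t` is the Fourier coefficient at frequency `η / 3E` of the slice
of `Φ M` at height `t`. -/
noncomputable def Bc (M : GN (3 * E)) (η : EI) (t : ℝ) : ℂ := hCoef D E (A.Φ M) η t

/-- The means over the horospheres vanish. -/
lemma mC_slice_eq_zero (M : GN (3 * E)) {t : ℝ} (ht : 0 < t) :
    mC D (fun z => A.Φ M (H3.mk z t)) = 0 := A.cusp M t ht D.w0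

end Fermat.LTG.W1
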