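import Fermat.Agent.LTG.W1.Per.HeckeB

/-!
# Weight one: coefficients along integers

For `m` prime to `3E` the coefficient at `m η` is `gN A.lam m / m` times the one at `η`.
-/

set_option autoImplicit false
open MeasureTheory
open scoped Classical

namespace Fermat.LTG.W1
open Fermat.LT Fermat.LT3

variable {K : Type*} [Field K] [NumberField K] [NumberField.IsTotallyComplex K] {D : KData K}
variable {E : ℕ} [NeZero E]

variable [IsPrincipalIdealRing EI] (A : Auto D E)

/-- The coefficient normalised to the class of the frequency; zero unless it is prime to `3E`. -/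
noncomputable def Vn (M : GN (3 * E)) (η : EI) : ℂ := normC (Bn A) M η

omit [IsPrincipalIdealRing EI] in
/-- The normalised coefficient is invariant under units. -/
lemma Vn_mul_unit (M : GN (3 * E)) (η : EI) (u : EIˣ) : Vn A M (η * u) = Vn A M η :=
  normC_mul_unit (B := Bn A) (fun N _ hη u a ha => Bn_unit A N hη u a ha) M η u

omit [IsPrincipalIdealRing EI] in
/-- The Hecke relation of the normalised coefficients at a prime. -/
theorem Vn_hecke (M : GN (3 * E)) {π η : EI} (hπ : Prime π) (hu : IsUnit (LT3.red (3 * (3 * E)) π))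
    (hη : IsUnit (LT3.red (3 * (3 * E)) η)) :
    (A.lam π : ℂ) * Vn A M η = ((QuadraticAlgebra.norm π : ℤ) : ℂ) * Vn A M (η * π)
      + if h : π ∣ η then Vn A M h.choose else 0 :=
  normC_hecke (B := Bn A) (fun hπ hu _ hT N _ hη => Bn_hecke A hπ hu hT N hη) M hπ hu hη

omit [IsPrincipalIdealRing EI] in
/-- At one the normalised coefficient is the coefficient. -/
lemma Vn_one (M : GN (3 * E)) : Vn A M 1 = Bn A M 1 := normC_one (B := Bn A) M

/-- The hypotheses on the eigenvalues. -/
structure LamOK : Prop where
  /-- The eigenvalues at primes off the level satisfy the Ramanujan bound. -/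
  bound : ∀ π : EI, Prime π → IsUnit (LT3.red (3 * (3 * E)) π) →
    |A.lam π| ≤ 2 * Real.sqrt ((QuadraticAlgebra.norm π : ℤ) : ℝ)
  /-- The eigenvalues at inert rational primes off the level are nonnegative. -/
  inert : ∀ p : ℕ, p.Prime → Nat.Coprime p (3 * E) →
    (¬ ∃ π : EI, QuadraticAlgebra.norm π = (p : ℤ)) → 0 ≤ A.lam (p : EI)

/-- **The coefficients at rational integers prime to the level.** -/
theorem Vn_signed (M : GN (3 * E)) {n : ℕ} (hn : Nat.Coprime n (3 * E)) (m : ℤ)
    (hm : m = n ∨ m = -n) : Vn A M (m : EI) = ((gN A.lam n / n : ℝ) : ℂ) * Vn A M 1 :=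
  signed_of_nat (V := Vn A M) (Vn_mul_unit A M)
    (nat_of_hecke (V := Vn A M) (lam := A.lam) (fun hπ hu hη => Vn_hecke A M hπ hu hη)
    (fun h => gN_mul h) (gN_one A.lam) fun hp _ k => gN_prime_pow hp k) hn m hm

end Fermat.LTG.W1
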