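import Fermat.Agent.LTG.W1.Per.Periods
import Fermat.Agent.LTG.W1.Per.Decay
import Fermat.Agent.LTG.W1.Per.Euler
import Fermat.Agent.LT3.Per.Lead

/-!
# Weight one: the first coefficient vanishes with the periods

The family is an invariant family of eigenfunctions, so the unfolding over the strip applies to it.
-/

set_option autoImplicit false
open MeasureTheory Filter
open scoped Topology

namespace Fermat.LTG.W1
open Fermat.LT Fermat.LT3

variable {K : Type*} [Field K] [NumberField K] [NumberField.IsTotallyComplex K] {D : KData K}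
variable {E : ℕ} [NeZero E] (A : Auto D E)

/-- The components form an invariant family. -/
lemma Auto.invFam : IsInvFam A.Φ :=
  ⟨A.isEig, A.inv, A.scal, fun h => A.congr_redD h, A.bound, exists_decay_Phi A⟩

variable [IsPrincipalIdealRing EI] (M : GN (3 * E))

/-- **The first coefficient vanishes.** If the sums of `abW` are unbounded as `σ → 1` and the
stabiliser periods vanish, the coefficient at `η = 1` is zero. -/
theorem Bn_one_eq_zero (hA : LamOK A)
    (hdiv : ∀ C : ℝ, ∃ᶠ σ : ℝ in 𝓝[>] 1, C ≤ ∑' p : Nat.Primes, abW A σ p)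
    (hPS : ∀ N : GN (3 * E), ∀ σ : ℝ, 1 < σ → PS A N (qS σ) = 0) : Bn A M 1 = 0 :=
  eCoef_one_eq_zero A.invFam D M
    (fun hn m hm => (Vn_signed A M hn m hm).trans (by rw [Vn_one]; rfl))
    (fun _ hσ => summable_gSer (gN_one A.lam) (abs_gN_pow_le hA.bound) gN_mul hσ)
    (gSer_unbounded A hA hdiv) fun j σ hσ => hPS _ σ hσ

end Fermat.LTG.W1
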